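import Fermat.Agent.MazurStep.Local.Modular
import Fermat.Agent.MazurStep.Kummer
import Fermat.Agent.OrdinaryP.CurveHecke
import Fermat.Agent.MazurStep.Global.Defs

/-!
# The formal group data of the modular curve

The Hecke operators act on tangents of `modCurve` through integral matrices, the residue of
`σ Λ / Λ` is read off from the action on roots of unity, and a piece of the `l`-torsion of `J₀(p)`
cut out by such a matrix gets the data `Global.FormalData`.
-/

set_option autoImplicit false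

noncomputable section

namespace Fermat.Agent.MazurStep

open HahnSeries AlgebraicCurve ModularCurve
open Fermat.Agent.Reduction
open Fermat.Agent.Reduction.CurveRed

section Acts

variable {K k : Type*} [Field K] [Field k] {A : ValuationSubring K} {π : A →+* k}
  {S : CurveRed A π} {n₀ : ℕ}

theorem Forms.acts_zero (Φ : Forms S) (hgap : S.GapBound n₀) : Φ.Acts n₀ 0 0 := by
  intro H z num den m r h
  refine ⟨den, den, m, ⟨⟨⟨m, h.1.exact.1⟩, h.1.exact, h.1.lt_one,
    by rw [sub_self]; exact boundedBy_zero r, (h.1.exact.badHom_eq_zero hgap).symm⟩,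
    h.2.1, h.2.2.2, h.2.2.2⟩, fun i => ?_⟩
  have ht : Φ.tang den den i = 0 := by
    rw [Forms.tang, dev, sub_self, zero_mul, Φ.pair_zero, Pi.zero_apply]
  simp [ht]

/-- The operators with their matrices on tangents form a semiring. -/
def Forms.actsSubsemiring (Φ : Forms S) (hgap : S.GapBound n₀) :
    Subsemiring (AddMonoid.End (Pic0 K S.F) × Matrix (Fin S.g) (Fin S.g) ℤ) where
  carrier := {x | Φ.Acts n₀ x.1 x.2}
  mul_mem' {_ _} ha hb := Forms.Acts.comp ha hb
  one_mem' := Φ.acts_id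
  add_mem' {_ _} ha hb := Forms.Acts.add ha hb
  zero_mem' := Φ.acts_zero hgap

/-- An identity on coefficients passes to a curve with an equal field. -/
theorem Forms.exists_matrix_copyF {F' : IntermediateField K (LaurentSeries K)} (h : F' = S.F)
    (Φ : Forms S) (P : (ℕ → ℤ) → ℕ → ℤ)
    (hM : ∃ M : Matrix (Fin S.g) (Fin S.g) ℤ, ∀ i n, P (Φ.coef i) n = ∑ j, M i j * Φ.coef j n) :
    ∃ M : Matrix (Fin (MazurStep.copyF S h).g) (Fin (MazurStep.copyF S h).g) ℤ,
      ∀ i n, P ((Φ.copyF h).coef i) n = ∑ j, M i j * (Φ.copyF h).coef j n := hM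

/-- The matrix of `T_q` or `U_q` reduces to a Frobenius matrix at `q`. -/
theorem Forms.isFrobMatrix_of_heckeCoef (Φ : Forms S) {N q : ℕ}
    {M : Matrix (Fin S.g) (Fin S.g) ℤ}
    (hM : ∀ i n, OrdinaryP.heckeCoef N q (Φ.coef i) n = ∑ j, M i j * Φ.coef j n) :
    Φ.IsFrobMatrix q M := fun i n => by
  rw [← hM, OrdinaryP.heckeCoef, mul_comm q n, sub_add_cancel_left, dvd_neg]
  split_ifs
  · exact dvd_mul_right _ _
  · exact dvd_zero _

variable {L : LocalData S n₀} {Γ : Type*} [Group Γ] (T : LocalGroup L Γ)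

/-- **The residue of `σ Λ / Λ`.** -/
theorem LocalGroup.residue_apply_Λ {ζ : K} (hζ : IsPrimitiveRoot ζ L.l) {σ : Γ} {c : ℕ}
    (hσ : (T.sym σ).base ζ = ζ ^ c) (hm : (T.sym σ).base L.Λ / L.Λ ∈ A) :
    π ⟨_, hm⟩ = (c : k) := by
  set s := T.sym σ
  have hρ : A.valuation (ζ - 1) = L.ρ := LocalGroup.valuation_zeta_sub_one hζ
  have hw : (ζ - 1) / L.Λ ∈ A := L.div_mem hρ.le
  have hζA : ζ ∈ A := by
    rw [show ζ = (ζ - 1) + 1 by ring]
    exact add_mem ((ValuationSubring.valuation_le_one_iff _ _).mp (hρ.le.trans L.ρ_lt_one.le))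
      (one_mem _)
  have hπζ : π ⟨ζ, hζA⟩ = 1 := by
    rw [← sub_eq_zero, ← map_one π, ← map_sub, residue_eq_zero_iff S.surj]
    show A.valuation (ζ - 1) < 1
    exact hρ.le.trans_lt L.ρ_lt_one
  have h1 := s.residue_eq ⟨_, hw⟩ ((s.apply_mem_iff _).mpr hw)
  have e1 : π ⟨_, hw⟩ ≠ 0 := by
    rw [residue_ne_zero_iff S.surj]
    show A.valuation ((ζ - 1) / L.Λ) = 1
    rw [map_div₀, hρ]
    exact div_self L.ρ_ne_zero
  refine mul_left_cancel₀ e1 ?_
  conv_lhs => rw [← h1, ← map_mul]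
  rw [show (c : k) = π (∑ i ∈ Finset.range c, (⟨ζ, hζA⟩ : A) ^ i) by
    simp only [map_sum, map_pow, hπζ, one_pow, Finset.sum_const, Finset.card_range,
      nsmul_eq_mul, mul_one], ← map_mul]
  refine congrArg π (Subtype.ext ?_)
  show s.base ((ζ - 1) / L.Λ) * (s.base L.Λ / L.Λ) =
    (ζ - 1) / L.Λ * ((∑ i ∈ Finset.range c, (⟨ζ, hζA⟩ : A) ^ i : A) : K)
  push_cast
  rw [map_div₀, map_sub, map_one, hσ,
    div_mul_div_cancel₀ ((map_ne_zero_iff _ s.base.injective).mpr L.Λ_ne_zero), div_mul_eq_mul_div,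
    mul_geom_sum]

end Acts

/-! ### The modular curve -/

local notation "ℚbar" => AlgebraicClosure ℚ
local notation "Γℚ" => AlgebraicClosure ℚ ≃ₐ[ℚ] AlgebraicClosure ℚ

section Hecke

variable {ℓ : ℕ} [Fact ℓ.Prime] {A : ValuationSubring ℚbar} (hA : A.LiesOverPrime ℓ) (N : ℕ)
  [NeZero N] (hℓN : ¬ ℓ ∣ N)

/-- **`T_q` acts on tangents of the modular curve**, `q = ℓ` included. -/
theorem exists_acts_modCurve {q : ℕ} [hq : Fact q.Prime] (hqN : ¬ q ∣ N) {n₀ : ℕ}
    (hgap : (modCurve hA N hℓN).GapBound n₀) :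
    ∃ M : Matrix (Fin (modCurve hA N hℓN).g) (Fin (modCurve hA N hℓN).g) ℤ,
      (∀ i n, OrdinaryP.heckeCoef N q ((modForms hA N hℓN).coef i) n =
        ∑ j, M i j * (modForms hA N hℓN).coef j n) ∧
      (modForms hA N hℓN).Acts n₀ (heckeOperatorBar N ⟨q, hq.out⟩).toAddMonoidHom M := by
  obtain ⟨L, hL⟩ := OrdinaryP.exists_normLift_of_eq (modCurve hA N hℓN) rfl hqN
  obtain ⟨M, hM⟩ : ∃ M : Matrix (Fin (modCurve hA N hℓN).g) (Fin (modCurve hA N hℓN).g) ℤ,
      ∀ i n, OrdinaryP.heckeCoef N q ((modForms hA N hℓN).coef i) n =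
        ∑ j, M i j * (modForms hA N hℓN).coef j n :=
    (OrdinaryP.levelForms (N := N) hA hℓN).exists_matrix_copyF
      (modularFunctionFieldBar_eq_qbarCurve hA N hℓN) (OrdinaryP.heckeCoef N q)
      (OrdinaryP.exists_heckeMatrix_levelForms (N := N) hA hℓN hq.out)
  refine ⟨M, hM, ?_⟩
  have hop : L.op = (heckeOperatorBar N ⟨q, hq.out⟩).toAddMonoidHom :=
    AddMonoidHom.ext fun x => hL x
  rw [← hop]
  refine L.acts _ hgap fun i n => ?_
  have h := hM i n
  simp only [OrdinaryP.heckeCoef, hqN, not_false_eq_true, true_and] at h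
  exact h

theorem exists_pow_eq_neg_prime : ∃ Λ : ℚbar, Λ ^ (ℓ - 1) = -(ℓ : ℚbar) :=
  IsAlgClosed.exists_pow_nat_eq _ (by have := (Fact.out (p := ℓ.Prime)).two_le; omega)

/-- The local data of the modular curve for a part cut out by `E`. -/
def modLocalData {n₀ : ℕ} (hgap : (modCurve hA N hℓN).GapBound n₀)
    (M E M' : Matrix (Fin (modCurve hA N hℓN).g) (Fin (modCurve hA N hℓN).g) ℤ)
    (hM : (modForms hA N hℓN).IsFrobMatrix ℓ M)
    (hM' : ∀ i j, (ℓ : ℤ) ∣ (M' * (E * M)) i j - E i j) :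
    LocalData (modCurve hA N hℓN) n₀ where
  Φ := modForms hA N hℓN
  gap := hgap
  l := ℓ
  prime := Fact.out
  valuation_lt := valuation_natCast_lt hA
  ne_zero := Nat.cast_ne_zero.mpr (Fact.out (p := ℓ.Prime)).ne_zero
  M := M
  isFrob := hM
  E := E
  M' := M'
  inverse := hM'
  Λ := (exists_pow_eq_neg_prime (ℓ := ℓ)).choose
  Λ_pow := (exists_pow_eq_neg_prime (ℓ := ℓ)).choose_spec

end Hecke

section Data

variable {p l : ℕ} [NeZero p] [Fact l.Prime] {Al : ValuationSubring ℚbar}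
  (hAl : Al.LiesOverPrime l) {hlp : ¬ l ∣ p} {n₀ : ℕ}

/-- The formal group data of a piece, for given local data. -/
theorem exists_formalData_aux (L : LocalData (modCurve hAl p hlp) n₀) (hL : L.l = l)
    (hEE : ∀ i j, (L.l : ℤ) ∣ (L.E * L.E) i j - L.E i j)
    (hEM : ∀ i j, (L.l : ℤ) ∣ (L.E * L.M) i j - (L.M * L.E) i j)
    (op : JZero p →+ JZero p) (hop : L.Tracks op L.E)
    (hopc : ∀ (σ : Γℚ) (z : JZero p), op (σ • z) = σ • op z)
    (G : AddSubgroup (JZero p)) (htor : ∀ x ∈ G, L.l • x = 0) (hfix : ∀ x ∈ G, op x = x)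
    (hstab : ∀ σ : Γℚ, ∀ x ∈ G, σ • x ∈ G) {g : ℕ}
    (hg : Module.finrank (IsLocalRing.ResidueField Al) (LinearMap.range
      (L.E.map (Int.cast : ℤ → IsLocalRing.ResidueField Al)).mulVecLin) ≤ g) :
    ∃ F : Global.FormalData L.l Al G g, F.K = L.gap.sp.ker := by
  have := Gal.isAlgClosed_residueField Al
  let T := inertiaGroup hAl L hL
  have hact : ∀ (σ : Al.inertiaSubgroupIn ℚ) (z : JZero p),
      (T.sym σ).act z = (σ : Γℚ) • z := inertiaSym_act hAl p hlp
  have hsub : ∀ (σ : Al.inertiaSubgroupIn ℚ) (z : JZero p),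
      (σ : Γℚ) • z - z ∈ L.gap.sp.ker := fun σ z => by
    rw [AddMonoidHom.mem_ker, map_sub, ← hact σ z, Sym.sp_act, sub_self]
  have hG : T.IsPiece op (G ⊓ L.gap.sp.ker) :=
    { tracks := hop
      torsion := fun x hx => htor x hx.1
      fixed := fun x hx => hfix x hx.1
      sp_zero := fun x hx => hx.2
      stable := fun σ x hx => by
        refine ⟨?_, ?_⟩
        · rw [hact]; exact hstab _ x hx.1
        · show L.gap.sp ((T.sym σ).act x) = 0
          rw [Sym.sp_act]; exact hx.2 }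
  refine ⟨⟨L.gap.sp.ker, fun σ hσ y => hsub ⟨σ, hσ⟩ y, fun σ hσ x hxG hxK c hc => ?_, ?_,
    fun y hy f hf ζ hζ lam hlam c hcf => ?_⟩, rfl⟩
  · obtain ⟨ζ, hζ⟩ : ∃ ζ : ℚbar, IsPrimitiveRoot ζ L.l := by
      have : NeZero ((L.l : ℕ) : ℚbar) := ⟨L.ne_zero⟩
      exact HasEnoughRootsOfUnity.exists_primitiveRoot ℚbar L.l
    rw [← hact ⟨σ, hσ⟩ x]
    exact T.act_eq_nsmul hG ⟨hxG, hxK⟩ ⟨σ, hσ⟩ fun hm =>
      T.residue_apply_Λ (σ := ⟨σ, hσ⟩) hζ (hc ζ hζ.pow_eq_one) hm
  · exact (T.card_piece_le hG).2.trans (Nat.pow_le_pow_right L.prime.pos hg)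
  · have hlamval : Al.valuation lam ^ L.l = L.γ := by
      rw [← map_pow]
      rcases hlam with h | h
      · rw [h]; rfl
      · rw [h, Valuation.map_neg]; rfl
    refine T.kummer hG (fun σ z => ?_) hEE hEM (y := y) (fun σ => ?_) (f := f) hf hζ
      (lam := lam) (fun σ => ?_) hlamval c fun σ hσζ j hj => ?_
    · rw [hact, hact, hopc]
    · rw [hact]; exact ⟨hy σ σ.2, hsub σ y⟩
    · rcases hlam with h | h
      · rw [h, map_natCast]
      · rw [h, map_neg, map_natCast]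
    · rw [hact]; exact hcf σ σ.2 hσζ j hj

/-- **The formal group data of a piece of the `l`-torsion.** -/
theorem exists_formalData (L : LocalData (modCurve hAl p hlp) n₀) (hL : L.l = l)
    (hEE : ∀ i j, (l : ℤ) ∣ (L.E * L.E) i j - L.E i j)
    (hEM : ∀ i j, (l : ℤ) ∣ (L.E * L.M) i j - (L.M * L.E) i j)
    (op : JZero p →+ JZero p) (hop : L.Tracks op L.E)
    (hopc : ∀ (σ : Γℚ) (z : JZero p), op (σ • z) = σ • op z)
    (G : AddSubgroup (JZero p)) (htor : ∀ x ∈ G, l • x = 0) (hfix : ∀ x ∈ G, op x = x)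
    (hstab : ∀ σ : Γℚ, ∀ x ∈ G, σ • x ∈ G) {g : ℕ}
    (hg : Module.finrank (IsLocalRing.ResidueField Al) (LinearMap.range
      (L.E.map (Int.cast : ℤ → IsLocalRing.ResidueField Al)).mulVecLin) ≤ g) :
    ∃ F : Global.FormalData l Al G g, F.K = L.gap.sp.ker := by
  have h := exists_formalData_aux hAl L hL (fun i j => by rw [hL]; exact hEE i j)
    (fun i j => by rw [hL]; exact hEM i j) op hop hopc G
    (fun x hx => by rw [hL]; exact htor x hx) hfix hstab hg
  rw [hL] at h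
  exact h

end Data

end Fermat.Agent.MazurStep
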