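import Fermat.Agent.MazurStep.LocalGroup
import Fermat.Agent.OrdinaryP.Forms
import Fermat.Agent.Reduction.Level.Normal
import Fermat.Agent.Carayol.Descent.InertiaField
import Fermat.Agent.MordellWeil.Modular

/-!
# The reduced curve of level `N` and its inertia symmetries

`modCurve` is `qbarCurve` with function field literally `modularFunctionFieldBar N`, so that
`JZero N` is its divisor class group. Every element of an inertia group is a symmetry of it, acting
on classes as in `JZero N`, and the inertia group gives a `LocalGroup`.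
-/

set_option autoImplicit false

noncomputable section

namespace Fermat.Agent.MazurStep

open HahnSeries AlgebraicCurve ModularCurve
open Fermat.Agent.Reduction
open Fermat.Agent.Reduction.CurveRed
open scoped Pointwise

/-! ### Replacing the function field by an equal one -/

section Copy

variable {K k : Type*} [Field K] [Field k] {A : ValuationSubring K} {π : A →+* k}

/-- The same curve with the function field replaced by an equal one. -/
@[reducible]
def copyF (S : CurveRed A π) {F' : IntermediateField K (LaurentSeries K)} (h : F' = S.F) :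
    CurveRed A π where
  F := F'
  Fbar := S.Fbar
  pt := h.symm ▸ S.pt
  g := S.g
  surj := S.surj
  arch := S.arch
  normalizable := by subst h; exact S.normalizable
  red_mem := by subst h; exact S.red_mem
  ord_pt := by subst h; exact S.ord_pt
  deg_one := by subst h; exact S.deg_one
  hasPrincipal := by subst h; exact S.hasPrincipal
  riemann := by subst h; exact S.riemann

variable {S : CurveRed A π} {n₀ : ℕ} {F' : IntermediateField K (LaurentSeries K)} (h : F' = S.F)

theorem space_atPt_copyF (n : ℤ) :
    (copyF S h).space ((copyF S h).atPt n) = S.space (S.atPt n) := by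
  subst h; rfl

theorem gapBound_copyF (hgap : S.GapBound n₀) : (copyF S h).GapBound n₀ :=
  by subst h; exact hgap

/-- The forms of the original curve on the copy. -/
def Forms.copyF (Φ : Forms S) : Forms (copyF S h) where
  coef := Φ.coef
  coef_zero := Φ.coef_zero
  indep := Φ.indep
  residue n y hy := Φ.residue n y (space_atPt_copyF h n ▸ hy)

end Copy

/-! ### The modular curve -/

local notation "ℚbar" => AlgebraicClosure ℚ
local notation "Γℚ" => AlgebraicClosure ℚ ≃ₐ[ℚ] AlgebraicClosure ℚ

section Modular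

variable {ℓ : ℕ} [Fact ℓ.Prime] {A : ValuationSubring ℚbar} (hA : A.LiesOverPrime ℓ) (N : ℕ)
  [NeZero N] (hℓN : ¬ ℓ ∣ N)

theorem modularFunctionFieldBar_eq_qbarCurve :
    modularFunctionFieldBar N = (Level.qbarCurve A hA N hℓN).F := by
  have := Gal.isAlgClosed_residueField A
  unfold Level.qbarCurve
  rw [Level.levelCurve_F]
  exact Level.modularFunctionFieldBar_eq_fullC N

/-- `X₀(N)` over `ℚ̄` with its reduction at a place over `ℓ ∤ N`. -/
abbrev modCurve : CurveRed A (IsLocalRing.residue A) :=
  copyF (Level.qbarCurve A hA N hℓN) (modularFunctionFieldBar_eq_qbarCurve hA N hℓN)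

theorem gapBound_modCurve {n₀ : ℕ} (h : (Level.qbarCurve A hA N hℓN).GapBound n₀) :
    (modCurve hA N hℓN).GapBound n₀ := gapBound_copyF _ h

/-- The modular curve has a gap bound. -/
theorem exists_gapBound_modCurve : ∃ n₀, (modCurve hA N hℓN).GapBound n₀ :=
  (Level.exists_gapBound_qbar A hA N hℓN).imp fun _ h => gapBound_modCurve hA N hℓN h

/-- The chosen forms on the modular curve. -/
def modForms : Forms (modCurve hA N hℓN) :=
  (OrdinaryP.levelForms (N := N) hA hℓN).copyF _

omit [Fact (Nat.Prime ℓ)] in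
include hA in
theorem valuation_natCast_lt : A.valuation (ℓ : ℚbar) < 1 := (A.mem_nonunits_iff).mp hA

omit [Fact ℓ.Prime] in
/-- An element of the decomposition group preserves the valuation. -/
theorem valuation_apply_eq {σ : Γℚ} (hσ : σ • A = A) (a : ℚbar) :
    A.valuation (σ a) = A.valuation a := by
  have hle : ∀ {x y : ℚbar}, y ≠ 0 →
      (A.valuation x ≤ A.valuation y ↔ A.valuation (σ x) ≤ A.valuation (σ y)) := fun {x y} hy => by
    have hy' : σ y ≠ 0 := (map_ne_zero_iff _ σ.injective).mpr hy
    rw [← div_le_one₀ (zero_lt_iff.mpr ((Valuation.ne_zero_iff A.valuation).mpr hy)),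
      ← div_le_one₀ (zero_lt_iff.mpr ((Valuation.ne_zero_iff A.valuation).mpr hy')),
      ← map_div₀, ← map_div₀,
      ValuationSubring.valuation_le_one_iff, ValuationSubring.valuation_le_one_iff,
      ← map_div₀ σ, Gal.apply_mem_iff hσ]
  rcases eq_or_ne a 0 with rfl | ha
  · rw [map_zero]
  have hne : ∀ i, (σ ^ i) a ≠ 0 := fun i => (map_ne_zero_iff _ (σ ^ i).injective).mpr ha
  obtain ⟨i, j, hij, heq⟩ : ∃ i j, i < j ∧ (σ ^ i) a = (σ ^ j) a := by
    have hP : minpoly ℚ a ≠ 0 := minpoly.ne_zero (Algebra.IsIntegral.isIntegral a)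
    obtain ⟨i, j, hne', heq⟩ := Finite.exists_ne_map_eq_of_infinite
      fun i : ℕ => (⟨(σ ^ i) a, Polynomial.mem_rootSet.mpr
        ⟨hP, by rw [Polynomial.aeval_algHom_apply, minpoly.aeval, map_zero]⟩⟩ :
        (minpoly ℚ a).rootSet ℚbar)
    rcases lt_or_gt_of_ne hne' with h | h
    · exact ⟨i, j, h, congrArg Subtype.val heq⟩
    · exact ⟨j, i, h, (congrArg Subtype.val heq).symm⟩
  refine le_antisymm (le_of_not_gt fun hlt => ?_) (le_of_not_gt fun hlt => ?_)
  · have hmono : StrictMono fun i => A.valuation ((σ ^ i) a) :=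
      strictMono_nat_of_lt_succ fun i => by
      induction i with
      | zero => simpa using hlt
      | succ i ih =>
        rw [pow_succ' σ (i + 1), pow_succ' σ i, AlgEquiv.mul_apply, AlgEquiv.mul_apply]
        rw [pow_succ' σ i, AlgEquiv.mul_apply] at ih
        exact lt_of_not_ge fun h => not_le.mpr ih ((hle (hne i)).mpr h)
    exact (hmono hij).ne (congrArg A.valuation heq)
  · have hmono : StrictAnti fun i => A.valuation ((σ ^ i) a) :=
      strictAnti_nat_of_succ_lt fun i => by
      induction i with
      | zero => simpa using hlt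
      | succ i ih =>
        rw [pow_succ' σ (i + 1), pow_succ' σ i, AlgEquiv.mul_apply, AlgEquiv.mul_apply]
        rw [pow_succ' σ i, AlgEquiv.mul_apply] at ih
        exact lt_of_not_ge fun h => not_le.mpr ih
          ((hle (by rw [← AlgEquiv.mul_apply, ← pow_succ']; exact hne _)).mpr h)
    exact (hmono hij).ne (congrArg A.valuation heq).symm

/-- An element of inertia as a symmetry. -/
def inertiaSym (σ : A.inertiaSubgroupIn ℚ) : Sym (modCurve hA N hℓN) where
  base := (σ : Γℚ).toRingEquiv
  map_mem _ hu := coeffMap_mem_laurentBaseChange (σ : Γℚ) hu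
  symm_map_mem _ hu := coeffMap_mem_laurentBaseChange (σ : Γℚ).symm hu
  map_valuation a := valuation_apply_eq ((Gal.mem_inertia_iff A _).mp σ.2).1 a
  residue_eq a _ := (Gal.residue_eq_residue_iff A _ _).mpr
    (((Gal.mem_inertia_iff A _).mp σ.2).2 a a.2)

theorem inertiaSym_semi (σ : A.inertiaSubgroupIn ℚ) :
    (inertiaSym hA N hℓN σ).semi = arithmeticGalois (modularFunctionFieldFull N) (σ : Γℚ) :=
  Subtype.ext (Prod.ext (RingEquiv.ext fun _ => Subtype.ext rfl) rfl)

/-- **The symmetry acts as in `JZero N`.** -/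
theorem inertiaSym_act (σ : A.inertiaSubgroupIn ℚ) (z : JZero N) :
    (inertiaSym hA N hℓN σ).act z = (σ : Γℚ) • z := by
  rw [Sym.act_def, inertiaSym_semi]; rfl

/-- The fixed constants of inertia have the full residue field. -/
theorem rich_inertiaSym : Rich (Set.range (inertiaSym hA N hℓN)) := by
  intro a
  have := Gal.charP_residueField A (Fact.out (p := ℓ.Prime)) hA
  let : Algebra (ZMod ℓ) (IsLocalRing.ResidueField A) := ZMod.algebra _ ℓ
  have := Gal.isAlgebraic_residueField A hA
  obtain ⟨c, rfl⟩ : ∃ c, c = IsLocalRing.residue A a := ⟨_, rfl⟩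
  set c := IsLocalRing.residue A a
  rcases eq_or_ne c 0 with hc | hc
  · exact ⟨0, (fixedField _).zero_mem, by rw [map_zero]; exact hc.symm⟩
  let E := IntermediateField.adjoin (ZMod ℓ) ({c} : Set (IsLocalRing.ResidueField A))
  have : FiniteDimensional (ZMod ℓ) E :=
    IntermediateField.adjoin.finiteDimensional (Algebra.IsIntegral.isIntegral c)
  have : Finite E := Module.finite_of_finite (ZMod ℓ)
  let := Fintype.ofFinite E
  set m := Fintype.card E - 1
  have hpow : c ^ m = 1 :=
    congrArg Subtype.val (FiniteField.pow_card_sub_one_eq_one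
      (⟨c, IntermediateField.mem_adjoin_simple_self _ c⟩ : E)
      (fun h => hc (congrArg Subtype.val h)))
  have hm : (m : IsLocalRing.ResidueField A) = -1 := by
    rw [Nat.cast_sub Fintype.card_pos, Nat.cast_one]
    have := congrArg (algebraMap E (IsLocalRing.ResidueField A)) (Nat.cast_card_eq_zero E)
    rw [map_natCast, map_zero] at this
    rw [this, zero_sub]
  have hm0 : m ≠ 0 := fun h => by simp [h] at hm
  obtain ⟨y, -, hyc, hyfix⟩ := Gal.exists_root_fixed_of_simple_root (K := ℚ) A
    (p := Polynomial.X ^ m - Polynomial.C 1) (Polynomial.monic_X_pow_sub_C 1 hm0)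
    (fun i σ _ => by
      rw [Polynomial.coeff_sub, Polynomial.coeff_X_pow, Polynomial.coeff_C]
      split_ifs <;> simp) (c := c) (by simp [Polynomial.IsRoot, hpow]) (by
      simp [Polynomial.IsRoot, Polynomial.derivative_X_pow, hm, pow_ne_zero _ hc])
  exact ⟨y, mem_fixedField.mpr (by rintro _ ⟨σ, rfl⟩; exact hyfix _ σ.2), hyc⟩

/-- Every class is fixed by a subgroup of finite index of inertia. -/
theorem exists_finiteIndex_fixing (z : JZero N) :
    ∃ H : Subgroup (A.inertiaSubgroupIn ℚ), H.FiniteIndex ∧
      ∀ σ ∈ H, (inertiaSym hA N hℓN σ).act z = z := by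
  obtain ⟨E, hE, hfix⟩ := MW.exists_fixing_class N z
  let L := IntermediateField.normalClosure ℚ E ℚbar
  have : Normal ℚ L := normalClosure.normal ℚ _ _
  let r := (AlgEquiv.restrictNormalHom (F := ℚ) (K₁ := ℚbar) L).comp
    (A.inertiaSubgroupIn ℚ).subtype
  refine ⟨r.ker, Subgroup.finiteIndex_ker r, fun σ hσ => ?_⟩
  rw [inertiaSym_act]
  refine hfix _ fun x hx => ?_
  have hxL : x ∈ L := IntermediateField.le_normalClosure E hx
  exact ((AlgEquiv.restrictNormal_commutes (σ : Γℚ) L ⟨x, hxL⟩).symm.trans
    (congrArg (algebraMap L ℚbar) (AlgEquiv.congr_fun (MonoidHom.mem_ker.mp hσ) ⟨x, hxL⟩)))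

end Modular

/-! ### The local group -/

section Local

variable {l : ℕ} [Fact l.Prime] {A : ValuationSubring ℚbar} (hA : A.LiesOverPrime l) {N : ℕ}
  [NeZero N] {hlN : ¬ l ∣ N} {n₀ : ℕ}

/-- The inertia group acting on the modular curve. -/
def inertiaGroup (L : LocalData (modCurve hA N hlN) n₀) (hL : L.l = l) :
    LocalGroup L (A.inertiaSubgroupIn ℚ) where
  sym := inertiaSym hA N hlN
  base_mul _ _ _ := rfl
  rich := rich_inertiaSym hA N hlN
  valuation_fixed a hfix ha := by
    obtain ⟨j, h1, h2⟩ := Carayol.InertiaField.exists_zpow_mul_unit (Fact.out (p := l.Prime)) hA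
      (fun σ hσ => hfix ⟨σ, hσ⟩) ha
    refine ⟨j, ?_⟩
    rw [← ValuationSubring.valuation_le_one_iff, map_div₀, map_zpow₀] at h1 h2
    rw [LocalData.γ, hL]
    have hl0 : A.valuation (l : ℚbar) ^ j ≠ 0 := zpow_ne_zero _ ((Valuation.ne_zero_iff _).mpr
      (Nat.cast_ne_zero.mpr (Fact.out (p := l.Prime)).ne_zero))
    exact le_antisymm ((div_le_one₀ (zero_lt_iff.mpr hl0)).mp h1)
      ((div_le_one₀ (zero_lt_iff.mpr ((Valuation.ne_zero_iff _).mpr ha))).mp h2)
  finiteIndex := exists_finiteIndex_fixing hA N hlN

end Local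

end Fermat.Agent.MazurStep
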